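import Fermat.Agent.S16.InvB.Defs

/-!
# S16 / INV-B: dimension `0`, and the duality relation in the induction step.
(statements frozen)
-/

set_option autoImplicit false

noncomputable section

namespace Fermat.Agent.S16.InvB

open Real Complex

private theorem bs_aux_eC_zero : eC 0 = 1 := by
  simp [eC]

private theorem bs_aux_dotR_zero (a b : Fin 0 → ℝ) : dotR a b = 0 := by
  simp [dotR]

theorem GP_zero (q qs : (Fin 0 → ℝ) → ℝ) (g : (Fin 0 → ℝ) → (Fin 0 → ℝ))
    (hq : ∀ u, q u = 0) (hqs : ∀ u, qs u = 0) : GP 0 q qs g 1 := by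
  refine ⟨one_pos, fun u => by rw [hqs, hq], fun τ _ v w => Summable.of_finite,
    fun τ _ v w => Summable.of_finite, fun τ _ v w => ?_⟩
  rw [tsum_fintype, tsum_fintype, Fintype.sum_unique, Fintype.sum_unique]
  simp only [hq, hqs, bs_aux_dotR_zero]
  simp [bs_aux_eC_zero]

theorem stepQs_stepG {n : ℕ} {q qs : (Fin n → ℝ) → ℝ} {g : (Fin n → ℝ) → (Fin n → ℝ)}
    (hdual : ∀ u, qs (g u) = q u) {d : ℝ} (hd : 0 < d) (c : Fin n → ℝ) (u : Fin (n + 1) → ℝ) :
    stepQs d c qs (stepG d c g u) = stepQ d c q u := by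
  have hd0 : d ≠ 0 := hd.ne'
  have h0 : stepG d c g u 0 = d * (u 0 + dotR c (Fin.tail u)) := by
    simp [stepG]
  have hfun : (fun i : Fin n => stepG d c g u i.succ - stepG d c g u 0 * c i) =
      g (Fin.tail u) := by
    funext i
    rw [h0]
    simp [stepG]
  unfold stepQs stepQ
  rw [hfun, hdual, h0]
  field_simp

theorem matQ_zero (A : Matrix (Fin 0) (Fin 0) ℝ) (u : Fin 0 → ℝ) : matQ A u = 0 := by
  simp [matQ]

end Fermat.Agent.S16.InvB
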