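import Fermat.Agent.S16.InvB.OneDim

/-!
# S16 / INV-B: norms and uniform bounds.  (statements frozen)
-/

set_option autoImplicit false

noncomputable section

namespace Fermat.Agent.S16.InvB

open Real Complex

theorem norm_eC (z : ℂ) : ‖eC z‖ = Real.exp (-2 * π * z.im) := by
  rw [eC, Complex.norm_exp]
  congr 1
  simp

theorem eC_add (z z' : ℂ) : eC (z + z') = eC z * eC z' := by
  rw [eC, eC, eC, ← Complex.exp_add, mul_add]

theorem eC_ne_zero (z : ℂ) : eC z ≠ 0 := Complex.exp_ne_zero _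

/-- Real frequencies do not change the norm. -/
theorem norm_eC_add_ofReal (z : ℂ) (r : ℝ) : ‖eC (z + (r : ℂ))‖ = ‖eC z‖ := by
  rw [norm_eC, norm_eC, Complex.add_im, Complex.ofReal_im, add_zero]

theorem im_neg_inv_pos {τ : ℂ} (hτ : 0 < τ.im) : 0 < (-1 / τ).im := by
  have hτ0 : τ ≠ 0 := by
    rintro rfl
    simp at hτ
  have hns : 0 < Complex.normSq τ := Complex.normSq_pos.mpr hτ0
  have h1 : (-1 / τ).im = τ.im / Complex.normSq τ := by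
    rw [neg_div, one_div, Complex.neg_im, Complex.inv_im, neg_div, neg_neg]
  rw [h1]
  exact div_pos hτ hns

theorem kap_ne_zero {τ : ℂ} (hτ : 0 < τ.im) : kap τ ≠ 0 := by
  have hτ0 : τ ≠ 0 := by
    rintro rfl
    simp at hτ
  have h1 : -I * τ ≠ 0 := mul_ne_zero (neg_ne_zero.mpr Complex.I_ne_zero) hτ0
  rw [kap]
  exact one_div_ne_zero (fun h0 => h1 ((Complex.cpow_eq_zero_iff _ _).mp h0).1)

/-- `‖e(z)‖ = e(i · Im z)` (a nonnegative real number). -/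
private theorem bd_aux_norm_eq (z : ℂ) : ((‖eC z‖ : ℝ) : ℂ) = eC (I * (z.im : ℂ)) := by
  rw [norm_eC, eC, Complex.ofReal_exp]
  congr 1
  push_cast
  linear_combination (-2 * (π : ℂ) * (z.im : ℂ)) * Complex.I_sq

/-- A sum of norms of `e(z x)` is the norm of the sum of `e(z' x)`, `z' x = i · Im (z x)`. -/
private theorem bd_aux_tsum_norm {ι : Type*} (z z' : ι → ℂ)
    (hz : ∀ x, z' x = I * ((z x).im : ℂ)) :
    ∑' x, ‖eC (z x)‖ = ‖∑' x, eC (z' x)‖ := by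
  have h1 : ∑' x, eC (z' x) = ((∑' x, ‖eC (z x)‖ : ℝ) : ℂ) := by
    rw [Complex.ofReal_tsum]
    exact tsum_congr fun x => by rw [hz x, bd_aux_norm_eq]
  rw [h1, Complex.norm_real, Real.norm_eq_abs,
    abs_of_nonneg (tsum_nonneg fun x => norm_nonneg _)]

/-- Uniform bound (in the shift) for the 1-dim Gaussian sum. -/
theorem oneDim_bound (d : ℝ) (hd : 0 < d) (τ : ℂ) (hτ : 0 < τ.im) :
    ∃ C : ℝ, ∀ s : ℝ,
      ∑' x : ℤ, ‖eC (((d / 2 * ((x : ℝ) + s) ^ 2 : ℝ) : ℂ) * τ)‖ ≤ C := by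
  set τ₀ : ℂ := I * (τ.im : ℂ) with hτ₀def
  have hτ₀ : 0 < τ₀.im := by simpa [hτ₀def] using hτ
  refine ⟨‖((1 / Real.sqrt d : ℝ) : ℂ) * kap τ₀‖ *
    ∑' y : ℤ, ‖eC (-((((y : ℝ) - 0) ^ 2 / (2 * d) : ℝ) : ℂ) / τ₀)‖, fun s => ?_⟩
  rw [bd_aux_tsum_norm (fun x : ℤ => ((d / 2 * ((x : ℝ) + s) ^ 2 : ℝ) : ℂ) * τ)
    (fun x : ℤ => ((d / 2 * ((x : ℝ) + s) ^ 2 : ℝ) : ℂ) * τ₀ +
      ((0 * ((x : ℝ) + s) : ℝ) : ℂ)) ?_]
  · rw [oneDim_eq d hd τ₀ hτ₀ s 0, norm_mul]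
    refine mul_le_mul_of_nonneg_left ?_ (norm_nonneg _)
    have hs := (oneDim_summable_dual d hd τ₀ hτ₀ s 0).norm
    refine (norm_tsum_le_tsum_norm hs).trans (le_of_eq ?_)
    exact tsum_congr fun y => norm_eC_add_ofReal _ _
  · intro x
    rw [Complex.im_ofReal_mul, hτ₀def]
    push_cast
    ring

section

variable {n : ℕ} {q qs : (Fin n → ℝ) → ℝ} {g : (Fin n → ℝ) → (Fin n → ℝ)} {D : ℝ}

theorem GP.summ_x_norm (h : GP n q qs g D) (τ : ℂ) (hτ : 0 < τ.im) (v : Fin n → ℝ) :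
    Summable fun x : Fin n → ℤ => ‖eC (((q (shiftV x v) : ℝ) : ℂ) * τ)‖ :=
  (h.summ_x τ hτ v 0).norm.congr fun _ => norm_eC_add_ofReal _ _

theorem GP.summ_y_norm (h : GP n q qs g D) (τ : ℂ) (hτ : 0 < τ.im) (w : Fin n → ℝ) :
    Summable fun y : Fin n → ℤ => ‖eC (-((qs (shiftV y (-w)) : ℝ) : ℂ) / τ)‖ :=
  (h.summ_y τ hτ 0 w).norm.congr fun _ => norm_eC_add_ofReal _ _

/-- Uniform bound (in the frequency `w`) for the dual Gaussian sum. -/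
theorem GP.bound_y (h : GP n q qs g D) (τ : ℂ) (hτ : 0 < τ.im) :
    ∃ C : ℝ, ∀ w : Fin n → ℝ,
      ∑' y : Fin n → ℤ, ‖eC (-((qs (shiftV y (-w)) : ℝ) : ℂ) / τ)‖ ≤ C := by
  have hs : 0 < (-1 / τ).im := im_neg_inv_pos hτ
  set s : ℝ := (-1 / τ).im with hsdef
  set τ₀ : ℂ := I * ((1 / s : ℝ) : ℂ) with hτ₀def
  have hτ₀ : 0 < τ₀.im := by
    have : τ₀.im = 1 / s := by simp [hτ₀def]
    rw [this]
    positivity
  have hK : ((1 / Real.sqrt D : ℝ) : ℂ) * kap τ₀ ^ n ≠ 0 := by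
    refine mul_ne_zero ?_ (pow_ne_zero _ (kap_ne_zero hτ₀))
    have : (0 : ℝ) < 1 / Real.sqrt D := by
      have := Real.sqrt_pos.mpr h.pos
      positivity
    exact_mod_cast this.ne'
  refine ⟨‖(((1 / Real.sqrt D : ℝ) : ℂ) * kap τ₀ ^ n)⁻¹‖ *
    ∑' x : Fin n → ℤ, ‖eC (((q (shiftV x 0) : ℝ) : ℂ) * τ₀)‖, fun w => ?_⟩
  rw [bd_aux_tsum_norm (fun y : Fin n → ℤ => -((qs (shiftV y (-w)) : ℝ) : ℂ) / τ)
    (fun y : Fin n → ℤ => -((qs (shiftV y (-w)) : ℝ) : ℂ) / τ₀ +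
      ((dotR (fun i => (y i : ℝ)) 0 : ℝ) : ℂ)) ?_]
  · have heq := h.eq τ₀ hτ₀ 0 w
    have heq' : ∑' y : Fin n → ℤ, eC (-((qs (shiftV y (-w)) : ℝ) : ℂ) / τ₀ +
        ((dotR (fun i => (y i : ℝ)) 0 : ℝ) : ℂ)) =
        (((1 / Real.sqrt D : ℝ) : ℂ) * kap τ₀ ^ n)⁻¹ *
          ∑' x : Fin n → ℤ, eC (((q (shiftV x 0) : ℝ) : ℂ) * τ₀ +
            ((dotR w (shiftV x 0) : ℝ) : ℂ)) := by
      rw [heq, ← mul_assoc, inv_mul_cancel₀ hK, one_mul]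
    rw [heq', norm_mul]
    refine mul_le_mul_of_nonneg_left ?_ (norm_nonneg _)
    have hsx := (h.summ_x τ₀ hτ₀ 0 w).norm
    refine (norm_tsum_le_tsum_norm hsx).trans (le_of_eq ?_)
    exact tsum_congr fun x => norm_eC_add_ofReal _ _
  · intro y
    have him : (-((qs (shiftV y (-w)) : ℝ) : ℂ) / τ).im = qs (shiftV y (-w)) * s := by
      have : -((qs (shiftV y (-w)) : ℝ) : ℂ) / τ = ((qs (shiftV y (-w)) : ℝ) : ℂ) * (-1 / τ) := by
        ring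
      rw [this, Complex.im_ofReal_mul]
    have hdot : dotR (fun i => (y i : ℝ)) (0 : Fin n → ℝ) = 0 := by simp [dotR]
    rw [him, hdot, hτ₀def]
    have hs0 : (s : ℂ) ≠ 0 := by exact_mod_cast hs.ne'
    push_cast
    field_simp
    linear_combination (-((qs (shiftV y (-w)) : ℝ) : ℂ) * (s : ℂ)) * Complex.I_sq

end

end Fermat.Agent.S16.InvB
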