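import Mathlib

/-!
# S16 / INV attempt B: definitions (owner: helper95).  Complete, no `sorry`.  Do not edit.

Gaussian Poisson summation by induction on the dimension with REAL shift `v` and REAL frequency `w`:
`∑_{x ∈ ℤⁿ} e(q(x+v) τ + w·(x+v)) = D^{-1/2} κ(τ)ⁿ ∑_{y ∈ ℤⁿ} e(-q*(y-w)/τ + y·v)`,
`e(z) = exp(2πi z)`, `κ(τ) = (-iτ)^{-1/2}`.  `GP n q qs g D` packages this identity (with
summability) for a pair of real functions `q`, `qs = q*` on `ℝⁿ`, together with the duality relation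
`q*(g u) = q u` (`g` = gradient map `u ↦ A u` when `q u = ½ uᵀ A u`).
-/

set_option autoImplicit false

noncomputable section

namespace Fermat.Agent.S16.InvB

open Real Complex

/-- `e(z) = exp(2πi z)`. -/
def eC (z : ℂ) : ℂ := cexp (2 * π * I * z)

/-- `κ(τ) = 1 / (-iτ)^{1/2}`. -/
def kap (τ : ℂ) : ℂ := 1 / (-I * τ) ^ (1 / 2 : ℂ)

/-- `x + v` as a real vector. -/
def shiftV {n : ℕ} (x : Fin n → ℤ) (v : Fin n → ℝ) : Fin n → ℝ := fun i => (x i : ℝ) + v i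

/-- The real dot product. -/
def dotR {n : ℕ} (a b : Fin n → ℝ) : ℝ := ∑ i, a i * b i

/-- Gaussian Poisson pair (see the file header). -/
structure GP (n : ℕ) (q qs : (Fin n → ℝ) → ℝ) (g : (Fin n → ℝ) → (Fin n → ℝ)) (D : ℝ) : Prop where
  pos : 0 < D
  dual : ∀ u, qs (g u) = q u
  summ_x : ∀ τ : ℂ, 0 < τ.im → ∀ v w : Fin n → ℝ,
    Summable fun x : Fin n → ℤ =>
      eC (((q (shiftV x v) : ℝ) : ℂ) * τ + ((dotR w (shiftV x v) : ℝ) : ℂ))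
  summ_y : ∀ τ : ℂ, 0 < τ.im → ∀ v w : Fin n → ℝ,
    Summable fun y : Fin n → ℤ =>
      eC (-((qs (shiftV y (-w)) : ℝ) : ℂ) / τ + ((dotR (fun i => (y i : ℝ)) v : ℝ) : ℂ))
  eq : ∀ τ : ℂ, 0 < τ.im → ∀ v w : Fin n → ℝ,
    ∑' x : Fin n → ℤ, eC (((q (shiftV x v) : ℝ) : ℂ) * τ + ((dotR w (shiftV x v) : ℝ) : ℂ)) =
      ((1 / Real.sqrt D : ℝ) : ℂ) * kap τ ^ n *
        ∑' y : Fin n → ℤ,
          eC (-((qs (shiftV y (-w)) : ℝ) : ℂ) / τ + ((dotR (fun i => (y i : ℝ)) v : ℝ) : ℂ))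

/-- One more variable in front: `q⁺(u₀, u') = (d/2)(u₀ + c·u')² + q(u')`. -/
def stepQ {n : ℕ} (d : ℝ) (c : Fin n → ℝ) (q : (Fin n → ℝ) → ℝ) (u : Fin (n + 1) → ℝ) : ℝ :=
  d / 2 * (u 0 + dotR c (Fin.tail u)) ^ 2 + q (Fin.tail u)

/-- The dual of `stepQ`: `q⁺*(η₀, η') = η₀²/(2d) + q*(η' - η₀ c)`. -/
def stepQs {n : ℕ} (d : ℝ) (c : Fin n → ℝ) (qs : (Fin n → ℝ) → ℝ) (η : Fin (n + 1) → ℝ) : ℝ :=
  (η 0) ^ 2 / (2 * d) + qs (fun i => η i.succ - η 0 * c i)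

/-- The gradient map of `stepQ`. -/
def stepG {n : ℕ} (d : ℝ) (c : Fin n → ℝ) (g : (Fin n → ℝ) → (Fin n → ℝ))
    (u : Fin (n + 1) → ℝ) : Fin (n + 1) → ℝ :=
  Fin.cons (d * (u 0 + dotR c (Fin.tail u)))
    (fun i => d * (u 0 + dotR c (Fin.tail u)) * c i + g (Fin.tail u) i)

/-- `q_A(u) = ½ uᵀ A u`. -/
def matQ {n : ℕ} (A : Matrix (Fin n) (Fin n) ℝ) (u : Fin n → ℝ) : ℝ :=
  (1 / 2 : ℝ) * ∑ i, ∑ j, A i j * u i * u j

/-- The Schur complement of the pivot `A 0 0`. -/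
def schur {n : ℕ} (A : Matrix (Fin (n + 1)) (Fin (n + 1)) ℝ) : Matrix (Fin n) (Fin n) ℝ :=
  fun i j => A i.succ j.succ - A i.succ 0 * A 0 j.succ / A 0 0

/-- The mixed term after the 1-dim Poisson step in the first variable. -/
def mixH {n : ℕ} (d : ℝ) (c : Fin n → ℝ) (q : (Fin n → ℝ) → ℝ) (τ : ℂ)
    (v w : Fin (n + 1) → ℝ) (y₀ : ℤ) (x' : Fin n → ℤ) : ℂ :=
  eC (-(((((y₀ : ℝ) - w 0) ^ 2 / (2 * d) : ℝ)) : ℂ) / τ + (((y₀ : ℝ) * v 0 : ℝ) : ℂ)) *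
    eC (((q (shiftV x' (Fin.tail v)) : ℝ) : ℂ) * τ +
      ((dotR (fun i => Fin.tail w i + ((y₀ : ℝ) - w 0) * c i) (shiftV x' (Fin.tail v)) : ℝ) : ℂ))

end Fermat.Agent.S16.InvB
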