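import Fermat.Agent.S16.InvB.Defs

/-!
# S16 / INV-B: determinant and Schur complement of the pivot.  (statement frozen)
-/

set_option autoImplicit false

noncomputable section

namespace Fermat.Agent.S16.InvB

open Real Complex

theorem det_eq_pivot_mul {n : ℕ} (A : Matrix (Fin (n + 1)) (Fin (n + 1)) ℝ) (h0 : A 0 0 ≠ 0) :
    A.det = A 0 0 * (schur A).det := by
  -- the multipliers of the Gaussian elimination
  let c : Fin (n + 1) → ℝ := Fin.cases 0 (fun i => A i.succ 0 / A 0 0)
  have hc0 : c 0 = 0 := rfl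
  have hcs : ∀ i : Fin n, c i.succ = A i.succ 0 / A 0 0 := fun i => rfl
  -- the eliminated matrix
  let B : Matrix (Fin (n + 1)) (Fin (n + 1)) ℝ := fun i j => A i j - c i * A 0 j
  have hB : ∀ i j, B i j = A i j - c i * A 0 j := fun i j => rfl
  have hB0 : ∀ j, B 0 j = A 0 j := fun j => by rw [hB, hc0, zero_mul, sub_zero]
  have hdet : A.det = B.det := by
    refine Matrix.det_eq_of_forall_row_eq_smul_add_const c 0 hc0 fun i j => ?_
    rw [hB0, hB]
    ring
  have hcol : ∀ i : Fin n, B i.succ 0 = 0 := fun i => by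
    rw [hB, hcs]
    field_simp
    ring
  have hsub : B.submatrix (Fin.succAbove 0) Fin.succ = schur A := by
    ext i j
    rw [Matrix.submatrix_apply, Fin.succAbove_zero, hB, hcs, schur]
    ring
  rw [hdet, Matrix.det_succ_column_zero, Fin.sum_univ_succ]
  have hrest : ∑ i : Fin n, (-1 : ℝ) ^ ((i.succ : Fin (n + 1)) : ℕ) * B i.succ 0 *
      (B.submatrix i.succ.succAbove Fin.succ).det = 0 := by
    refine Finset.sum_eq_zero fun i _ => ?_
    rw [hcol, mul_zero, zero_mul]
  rw [hrest, add_zero, hsub, hB0]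
  simp

end Fermat.Agent.S16.InvB
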