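import Fermat.Agent.S16.InvB.Defs

/-!
# S16 / INV-B: the pivot step for a real positive definite matrix.  (statements frozen)
-/

set_option autoImplicit false

noncomputable section

namespace Fermat.Agent.S16.InvB

open Real Complex

section

variable {n : ℕ} {A : Matrix (Fin (n + 1)) (Fin (n + 1)) ℝ}

private theorem sc_aux_symm (hA : A.PosDef) (i j : Fin (n + 1)) : A i j = A j i := by
  have h := hA.isHermitian.apply j i
  rwa [star_trivial] at h

/-- Splitting the quadratic form along the first variable (no symmetry used). -/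
private theorem sc_aux_quad_split (A : Matrix (Fin (n + 1)) (Fin (n + 1)) ℝ)
    (u : Fin (n + 1) → ℝ) :
    ∑ i, ∑ j, A i j * u i * u j =
      A 0 0 * u 0 ^ 2 + u 0 * (∑ j : Fin n, A 0 j.succ * u j.succ)
        + u 0 * (∑ i : Fin n, A i.succ 0 * u i.succ)
        + ∑ i : Fin n, ∑ j : Fin n, A i.succ j.succ * u i.succ * u j.succ := by
  have h1 : ∑ j : Fin n, A 0 j.succ * u 0 * u j.succ
      = u 0 * ∑ j : Fin n, A 0 j.succ * u j.succ := by
    rw [Finset.mul_sum]
    exact Finset.sum_congr rfl fun j _ => by ring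
  have h2 : ∑ i : Fin n, A i.succ 0 * u i.succ * u 0
      = u 0 * ∑ i : Fin n, A i.succ 0 * u i.succ := by
    rw [Finset.mul_sum]
    exact Finset.sum_congr rfl fun j _ => by ring
  simp only [Fin.sum_univ_succ, Finset.sum_add_distrib]
  rw [h1, h2]
  ring

/-- The quadratic form, using symmetry. -/
private theorem sc_aux_quad (hA : A.PosDef) (u : Fin (n + 1) → ℝ) :
    ∑ i, ∑ j, A i j * u i * u j =
      A 0 0 * u 0 ^ 2 + 2 * u 0 * (∑ j : Fin n, A 0 j.succ * u j.succ)
        + ∑ i : Fin n, ∑ j : Fin n, A i.succ j.succ * u i.succ * u j.succ := by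
  rw [sc_aux_quad_split]
  have h : ∑ i : Fin n, A i.succ 0 * u i.succ = ∑ j : Fin n, A 0 j.succ * u j.succ :=
    Finset.sum_congr rfl fun i _ => by rw [sc_aux_symm hA i.succ 0]
  rw [h]
  ring

/-- The quadratic form of the Schur complement. -/
private theorem sc_aux_schur_quad (hA : A.PosDef) (x : Fin n → ℝ) :
    ∑ i, ∑ j, schur A i j * x i * x j =
      ∑ i : Fin n, ∑ j : Fin n, A i.succ j.succ * x i * x j
        - (∑ j : Fin n, A 0 j.succ * x j) ^ 2 / A 0 0 := by
  have hterm : ∀ i j : Fin n, schur A i j * x i * x j =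
      A i.succ j.succ * x i * x j - (A 0 i.succ * x i) * (A 0 j.succ * x j) / A 0 0 := by
    intro i j
    simp only [schur]
    rw [sc_aux_symm hA i.succ 0]
    ring
  simp_rw [hterm, Finset.sum_sub_distrib]
  congr 1
  rw [pow_two, Finset.sum_mul_sum, Finset.sum_div]
  exact Finset.sum_congr rfl fun i _ => by rw [Finset.sum_div]

private theorem sc_aux_dotR (A : Matrix (Fin (n + 1)) (Fin (n + 1)) ℝ) (x : Fin n → ℝ) :
    dotR (fun i => A 0 i.succ / A 0 0) x = (∑ j : Fin n, A 0 j.succ * x j) / A 0 0 := by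
  simp only [dotR]
  rw [Finset.sum_div]
  exact Finset.sum_congr rfl fun i _ => by ring

private theorem sc_aux_dot_mulVec {m : ℕ} (M : Matrix (Fin m) (Fin m) ℝ) (x : Fin m → ℝ) :
    star x ⬝ᵥ (M.mulVec x) = ∑ i, ∑ j, M i j * x i * x j := by
  simp only [dotProduct, Matrix.mulVec, star_trivial, Finset.mul_sum]
  exact Finset.sum_congr rfl fun i _ => Finset.sum_congr rfl fun j _ => by ring

theorem schur_pivot_pos (hA : A.PosDef) : 0 < A 0 0 :=
  hA.diag_pos

theorem schur_posDef (hA : A.PosDef) : (schur A).PosDef := by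
  have hα : 0 < A 0 0 := schur_pivot_pos hA
  refine Matrix.PosDef.of_dotProduct_mulVec_pos ?_ ?_
  · ext i j
    simp only [Matrix.conjTranspose_apply, star_trivial, schur]
    rw [sc_aux_symm hA j.succ i.succ, sc_aux_symm hA j.succ 0, sc_aux_symm hA 0 i.succ]
    ring
  · intro x hx
    set S : ℝ := ∑ j : Fin n, A 0 j.succ * x j with hS
    set u : Fin (n + 1) → ℝ := Fin.cons (-(S / A 0 0)) x with hu
    have hu0 : u ≠ 0 := by
      intro h0
      apply hx
      funext i
      have := congrFun h0 i.succ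
      simpa [hu] using this
    have hpos := hA.dotProduct_mulVec_pos hu0
    rw [sc_aux_dot_mulVec, sc_aux_quad hA] at hpos
    rw [sc_aux_dot_mulVec, sc_aux_schur_quad hA]
    have e0 : u 0 = -(S / A 0 0) := by simp [hu]
    have es : ∀ i : Fin n, u i.succ = x i := fun i => by simp [hu]
    simp only [e0, es] at hpos
    rw [← hS] at hpos ⊢
    have key : A 0 0 * (-(S / A 0 0)) ^ 2 + 2 * (-(S / A 0 0)) * S
        = - (S ^ 2 / A 0 0) := by
      field_simp
      ring
    linarith

theorem matQ_eq_stepQ (hA : A.PosDef) (u : Fin (n + 1) → ℝ) :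
    matQ A u = stepQ (A 0 0) (fun i => A 0 i.succ / A 0 0) (matQ (schur A)) u := by
  have hα : 0 < A 0 0 := schur_pivot_pos hA
  have hα' : A 0 0 ≠ 0 := hα.ne'
  simp only [matQ, stepQ]
  rw [sc_aux_quad hA, sc_aux_schur_quad hA, sc_aux_dotR]
  simp only [Fin.tail]
  field_simp
  ring

theorem mulVec_eq_stepG (hA : A.PosDef) (u : Fin (n + 1) → ℝ) :
    A.mulVec u =
      stepG (A 0 0) (fun i => A 0 i.succ / A 0 0) (fun u' => (schur A).mulVec u') u := by
  have hα : 0 < A 0 0 := schur_pivot_pos hA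
  have hα' : A 0 0 ≠ 0 := hα.ne'
  funext k
  refine Fin.cases ?_ ?_ k
  · simp only [stepG, Fin.cons_zero]
    rw [sc_aux_dotR]
    simp only [Matrix.mulVec, dotProduct, Fin.sum_univ_succ, Fin.tail]
    field_simp
  · intro i
    simp only [stepG, Fin.cons_succ]
    rw [sc_aux_dotR]
    simp only [Matrix.mulVec, dotProduct, Fin.sum_univ_succ, Fin.tail]
    have h : ∑ j : Fin n, schur A i j * u j.succ
        = ∑ j : Fin n, A i.succ j.succ * u j.succ
          - A 0 i.succ * (∑ j : Fin n, A 0 j.succ * u j.succ) / A 0 0 := by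
      rw [Finset.mul_sum, Finset.sum_div, ← Finset.sum_sub_distrib]
      refine Finset.sum_congr rfl fun j _ => ?_
      simp only [schur]
      rw [sc_aux_symm hA i.succ 0]
      ring
    rw [h, sc_aux_symm hA i.succ 0]
    field_simp
    ring

end

end Fermat.Agent.S16.InvB
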