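import Fermat.Agent.S16.InvB.Step
import Fermat.Agent.S16.InvB.Schur
import Fermat.Agent.S16.InvB.Det

/-!
# S16 / INV-B: Gaussian Poisson summation for every real positive definite matrix.
-/

set_option autoImplicit false

noncomputable section

namespace Fermat.Agent.S16.InvB

open Real Complex

theorem exists_GP : ∀ (n : ℕ) (A : Matrix (Fin n) (Fin n) ℝ), A.PosDef →
    ∃ qs : (Fin n → ℝ) → ℝ, GP n (matQ A) qs (fun u => A.mulVec u) A.det := by
  intro n
  induction n with
  | zero =>
    intro A _
    refine ⟨fun _ => 0, ?_⟩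
    have hdet : A.det = 1 := Matrix.det_isEmpty
    rw [hdet]
    exact GP_zero _ _ _ (matQ_zero A) (fun _ => rfl)
  | succ n ih =>
    intro A hA
    obtain ⟨qs, hqs⟩ := ih (schur A) (schur_posDef hA)
    have hpiv := schur_pivot_pos hA
    refine ⟨stepQs (A 0 0) (fun i => A 0 i.succ / A 0 0) qs, ?_⟩
    have hstep := hqs.step hpiv (fun i => A 0 i.succ / A 0 0)
    have e1 : matQ A = stepQ (A 0 0) (fun i => A 0 i.succ / A 0 0) (matQ (schur A)) :=
      funext fun u => matQ_eq_stepQ hA u
    have e2 : (fun u => A.mulVec u) =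
        stepG (A 0 0) (fun i => A 0 i.succ / A 0 0) (fun u' => (schur A).mulVec u') :=
      funext fun u => mulVec_eq_stepG hA u
    rw [e1, e2, det_eq_pivot_mul A hpiv.ne']
    exact hstep

end Fermat.Agent.S16.InvB
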