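import Fermat.Agent.S16.InvB.Defs

/-!
# S16 / INV-B: the 1-dimensional Gaussian Poisson formula with real shift and real frequency.
(statements frozen)
-/

set_option autoImplicit false

noncomputable section

namespace Fermat.Agent.S16.InvB

open Real Complex

private theorem od_aux_im_pos (d : ℝ) (hd : 0 < d) (τ : ℂ) (hτ : 0 < τ.im) :
    0 < ((d : ℂ) * τ).im := by
  rw [Complex.im_ofReal_mul]
  exact mul_pos hd hτ

private theorem od_aux_im_neg_inv_pos (τ : ℂ) (hτ : 0 < τ.im) : 0 < (-1 / τ).im := by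
  rw [neg_div, neg_im, one_div, inv_im, neg_div, neg_neg]
  have hne : τ ≠ 0 := fun h => by rw [h] at hτ; simp at hτ
  exact div_pos hτ (normSq_pos.mpr hne)

private theorem od_aux_term_x (d : ℝ) (τ : ℂ) (s w : ℝ) (x : ℤ) :
    eC (((d / 2 * ((x : ℝ) + s) ^ 2 : ℝ) : ℂ) * τ + ((w * ((x : ℝ) + s) : ℝ) : ℂ)) =
      cexp (2 * π * I * ((d / 2 * s ^ 2 : ℂ) * τ + w * s)) *
        jacobiTheta₂_term x ((d : ℂ) * τ * s + w) ((d : ℂ) * τ) := by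
  unfold eC jacobiTheta₂_term
  rw [← Complex.exp_add]
  congr 1
  push_cast
  ring

private theorem od_aux_term_y (d : ℝ) (hd : 0 < d) (τ : ℂ) (hτ : τ ≠ 0) (s w : ℝ) (y : ℤ) :
    eC (-((((y : ℝ) - w) ^ 2 / (2 * d) : ℝ) : ℂ) / τ + (((y : ℝ) * s : ℝ) : ℂ)) =
      cexp (2 * π * I * ((d / 2 * s ^ 2 : ℂ) * τ + w * s)) *
        cexp (-π * I * ((d : ℂ) * τ * s + w) ^ 2 / ((d : ℂ) * τ)) *
        jacobiTheta₂_term y (((d : ℂ) * τ * s + w) / ((d : ℂ) * τ)) (-1 / ((d : ℂ) * τ)) := by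
  have hd' : (d : ℂ) ≠ 0 := Complex.ofReal_ne_zero.mpr hd.ne'
  unfold eC jacobiTheta₂_term
  rw [← Complex.exp_add, ← Complex.exp_add]
  congr 1
  push_cast
  field_simp
  ring

private theorem od_aux_const (d : ℝ) (hd : 0 < d) (τ : ℂ) (hτ : τ ≠ 0) :
    1 / (-I * ((d : ℂ) * τ)) ^ (1 / 2 : ℂ) = ((1 / Real.sqrt d : ℝ) : ℂ) * kap τ := by
  have hz : -I * τ ≠ 0 := mul_ne_zero (neg_ne_zero.mpr I_ne_zero) hτ
  have hd' : (d : ℂ) ≠ 0 := Complex.ofReal_ne_zero.mpr hd.ne'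
  have h1 : -I * ((d : ℂ) * τ) = (d : ℂ) * (-I * τ) := by ring
  have h2 : ((d : ℂ) * (-I * τ)) ^ (1 / 2 : ℂ) = (d : ℂ) ^ (1 / 2 : ℂ) * (-I * τ) ^ (1 / 2 : ℂ) := by
    rw [Complex.cpow_def_of_ne_zero (mul_ne_zero hd' hz), Complex.cpow_def_of_ne_zero hd',
      Complex.cpow_def_of_ne_zero hz, Complex.log_ofReal_mul hd hz, ← Complex.exp_add,
      Complex.ofReal_log hd.le]
    congr 1
    ring
  have h3 : (d : ℂ) ^ (1 / 2 : ℂ) = ((Real.sqrt d : ℝ) : ℂ) := by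
    rw [Real.sqrt_eq_rpow, Complex.ofReal_cpow hd.le]
    push_cast
    rfl
  unfold kap
  rw [h1, h2, h3]
  simp only [one_div, mul_inv, Complex.ofReal_inv]

theorem oneDim_summable (d : ℝ) (hd : 0 < d) (τ : ℂ) (hτ : 0 < τ.im) (s w : ℝ) :
    Summable fun x : ℤ =>
      eC (((d / 2 * ((x : ℝ) + s) ^ 2 : ℝ) : ℂ) * τ + ((w * ((x : ℝ) + s) : ℝ) : ℂ)) := by
  have hsum := (summable_jacobiTheta₂_term_iff ((d : ℂ) * τ * s + w) ((d : ℂ) * τ)).mpr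
    (od_aux_im_pos d hd τ hτ)
  have h := hsum.mul_left (cexp (2 * π * I * ((d / 2 * s ^ 2 : ℂ) * τ + w * s)))
  refine h.congr fun x => ?_
  exact (od_aux_term_x d τ s w x).symm

theorem oneDim_summable_dual (d : ℝ) (hd : 0 < d) (τ : ℂ) (hτ : 0 < τ.im) (s w : ℝ) :
    Summable fun y : ℤ =>
      eC (-((((y : ℝ) - w) ^ 2 / (2 * d) : ℝ) : ℂ) / τ + (((y : ℝ) * s : ℝ) : ℂ)) := by
  have hτ0 : τ ≠ 0 := fun h => by rw [h] at hτ; simp at hτ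
  have hsum := (summable_jacobiTheta₂_term_iff (((d : ℂ) * τ * s + w) / ((d : ℂ) * τ))
    (-1 / ((d : ℂ) * τ))).mpr (od_aux_im_neg_inv_pos _ (od_aux_im_pos d hd τ hτ))
  have h := hsum.mul_left (cexp (2 * π * I * ((d / 2 * s ^ 2 : ℂ) * τ + w * s)) *
        cexp (-π * I * ((d : ℂ) * τ * s + w) ^ 2 / ((d : ℂ) * τ)))
  refine h.congr fun y => ?_
  exact (od_aux_term_y d hd τ hτ0 s w y).symm

theorem oneDim_eq (d : ℝ) (hd : 0 < d) (τ : ℂ) (hτ : 0 < τ.im) (s w : ℝ) :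
    ∑' x : ℤ, eC (((d / 2 * ((x : ℝ) + s) ^ 2 : ℝ) : ℂ) * τ + ((w * ((x : ℝ) + s) : ℝ) : ℂ)) =
      ((1 / Real.sqrt d : ℝ) : ℂ) * kap τ *
        ∑' y : ℤ, eC (-((((y : ℝ) - w) ^ 2 / (2 * d) : ℝ) : ℂ) / τ + (((y : ℝ) * s : ℝ) : ℂ)) := by
  have hτ0 : τ ≠ 0 := fun h => by rw [h] at hτ; simp at hτ
  have hL : ∑' x : ℤ, eC (((d / 2 * ((x : ℝ) + s) ^ 2 : ℝ) : ℂ) * τ +
      ((w * ((x : ℝ) + s) : ℝ) : ℂ)) =
      cexp (2 * π * I * ((d / 2 * s ^ 2 : ℂ) * τ + w * s)) *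
        jacobiTheta₂ ((d : ℂ) * τ * s + w) ((d : ℂ) * τ) := by
    rw [jacobiTheta₂, ← tsum_mul_left]
    exact tsum_congr fun x => od_aux_term_x d τ s w x
  have hR : ∑' y : ℤ, eC (-((((y : ℝ) - w) ^ 2 / (2 * d) : ℝ) : ℂ) / τ +
      (((y : ℝ) * s : ℝ) : ℂ)) =
      cexp (2 * π * I * ((d / 2 * s ^ 2 : ℂ) * τ + w * s)) *
        cexp (-π * I * ((d : ℂ) * τ * s + w) ^ 2 / ((d : ℂ) * τ)) *
        jacobiTheta₂ (((d : ℂ) * τ * s + w) / ((d : ℂ) * τ)) (-1 / ((d : ℂ) * τ)) := by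
    rw [jacobiTheta₂, ← tsum_mul_left]
    exact tsum_congr fun y => od_aux_term_y d hd τ hτ0 s w y
  rw [hL, hR, jacobiTheta₂_functional_equation, od_aux_const d hd τ hτ0]
  ring

end Fermat.Agent.S16.InvB
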