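import Fermat.Agent.S16.InvB.Induct
import Fermat.Agent.S16.HeckeTrick.Defs

/-!
# S16 / INV attempt B: the 4-dimensional theta inversion formula in the frozen shape
`TH.InvStatement` (statement frozen by helper24).
-/

set_option autoImplicit false

noncomputable section

namespace Fermat.Agent.S16.InvB

open Real Complex

private theorem st_aux_matQ (A : Matrix (Fin 4) (Fin 4) ℤ) (u : Fin 4 → ℝ) :
    matQ (A.map (Int.cast : ℤ → ℝ)) u = TH.quad A u := by
  unfold matQ TH.quad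
  simp only [Matrix.map_apply]
  ring

private theorem st_aux_kap_pow (τ : ℂ) (hτ : 0 < τ.im) : kap τ ^ 4 = -1 / τ ^ 2 := by
  have hτ0 : τ ≠ 0 := by
    rintro rfl
    simp at hτ
  have h1 : ((-I * τ) ^ (1 / 2 : ℂ)) ^ 2 = -I * τ := by
    have h2 := Complex.cpow_nat_inv_pow (-I * τ) (n := 2) (by norm_num)
    have h3 : (1 / 2 : ℂ) = (((2 : ℕ) : ℂ))⁻¹ := by norm_num
    rw [h3]
    exact h2
  unfold kap
  rw [one_div_pow, show (4 : ℕ) = 2 * 2 from rfl, pow_mul, h1, mul_pow, neg_pow, Complex.I_sq]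
  field_simp

private theorem st_aux_qs (p : ℕ) (hp : 0 < p) (A A' : Matrix (Fin 4) (Fin 4) ℤ)
    (hAA' : A * A' = (p : ℤ) • (1 : Matrix (Fin 4) (Fin 4) ℤ))
    (qs : (Fin 4 → ℝ) → ℝ)
    (hdual : ∀ u, qs ((A.map (Int.cast : ℤ → ℝ)).mulVec u) = matQ (A.map (Int.cast : ℤ → ℝ)) u)
    (y : Fin 4 → ℝ) : qs y = TH.quad A' y / p := by
  have hp0 : (p : ℝ) ≠ 0 := Nat.cast_ne_zero.mpr hp.ne'
  set u : Fin 4 → ℝ := fun i => (∑ j, (A' i j : ℝ) * y j) / p with hu
  have hent : ∀ i j, ∑ k, (A i k : ℝ) * (A' k j : ℝ) = if i = j then (p : ℝ) else 0 := by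
    intro i j
    have h1 := congrFun (congrFun hAA' i) j
    rw [Matrix.mul_apply, Matrix.smul_apply, Matrix.one_apply] at h1
    have h2 := congrArg (Int.cast : ℤ → ℝ) h1
    push_cast at h2
    rw [h2]
    split_ifs <;> simp
  have hmul' : ∀ i, ∑ k, (A i k : ℝ) * u k = y i := by
    intro i
    have h1 : ∑ k, (A i k : ℝ) * u k =
        (∑ j, (∑ k, (A i k : ℝ) * (A' k j : ℝ)) * y j) / p := by
      simp only [hu]
      simp_rw [mul_div_assoc', ← Finset.sum_div, Finset.mul_sum, Finset.sum_mul]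
      rw [Finset.sum_comm]
      congr 1
      refine Finset.sum_congr rfl fun j _ => Finset.sum_congr rfl fun k _ => ?_
      ring
    rw [h1]
    simp_rw [hent]
    simp only [ite_mul, zero_mul, Finset.sum_ite_eq, Finset.mem_univ, if_true]
    field_simp
  have hmul : (A.map (Int.cast : ℤ → ℝ)).mulVec u = y := by
    funext i
    simp only [Matrix.mulVec, dotProduct, Matrix.map_apply]
    exact hmul' i
  rw [← hmul, hdual, hmul]
  unfold matQ TH.quad
  simp only [Matrix.map_apply]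
  have h3 : ∀ i, ∑ j, (A i j : ℝ) * u i * u j = u i * y i := by
    intro i
    rw [← hmul' i, Finset.mul_sum]
    refine Finset.sum_congr rfl fun j _ => ?_
    ring
  simp_rw [h3]
  simp only [hu]
  simp_rw [div_mul_eq_mul_div, ← Finset.sum_div, Finset.sum_mul]
  have hs : ∑ i, ∑ j, (A' i j : ℝ) * y j * y i = ∑ i, ∑ j, (A' i j : ℝ) * y i * y j :=
    Finset.sum_congr rfl fun i _ => Finset.sum_congr rfl fun j _ => by ring
  rw [hs]
  ring

/-- (INV) in the shape consumed by the TH block (`TH.InvStatement`, file HeckeTrick/Defs.lean). -/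
theorem inv_statement (p : ℕ) (hp : 0 < p) (A A' : Matrix (Fin 4) (Fin 4) ℤ)
    (hpos : (A.map (Int.cast : ℤ → ℝ)).PosDef)
    (hAA' : A * A' = (p : ℤ) • (1 : Matrix (Fin 4) (Fin 4) ℤ))
    (hdet : A.det = (p : ℤ) ^ 2) : TH.InvStatement p A A' := by
  intro v τ hτ
  have hτ0 : τ ≠ 0 := by
    rintro rfl
    simp at hτ
  have hp0 : (p : ℂ) ≠ 0 := Nat.cast_ne_zero.mpr hp.ne'
  obtain ⟨qs, h⟩ := exists_GP 4 (A.map (Int.cast : ℤ → ℝ)) hpos
  have hx := h.summ_x τ hτ v 0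
  have hy := h.summ_y τ hτ v 0
  have he := h.eq τ hτ v 0
  have hxf : (fun x : Fin 4 → ℤ =>
      eC (((matQ (A.map (Int.cast : ℤ → ℝ)) (shiftV x v) : ℝ) : ℂ) * τ +
        ((dotR 0 (shiftV x v) : ℝ) : ℂ))) =
      fun x : Fin 4 → ℤ =>
        cexp (2 * π * Complex.I * (TH.quad A (fun i => (x i : ℝ) + v i) : ℂ) * τ) := by
    funext x
    have h0 : dotR 0 (shiftV x v) = 0 := by simp [dotR]
    rw [h0, st_aux_matQ]
    unfold eC shiftV
    congr 1
    push_cast
    ring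
  have hyf : (fun y : Fin 4 → ℤ =>
      eC (-((qs (shiftV y (-0)) : ℝ) : ℂ) / τ +
        ((dotR (fun i => (y i : ℝ)) v : ℝ) : ℂ))) =
      fun y : Fin 4 → ℤ =>
        cexp (2 * π * Complex.I * (-(TH.quad A' (fun i => (y i : ℝ)) : ℂ) / ((p : ℂ) * τ)
          + ∑ i, (y i : ℂ) * (v i : ℂ))) := by
    funext y
    have h1 : shiftV y (-0) = fun i => (y i : ℝ) := by
      funext i
      simp [shiftV]
    rw [h1, st_aux_qs p hp A A' hAA' qs h.dual]
    unfold eC dotR
    congr 1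
    push_cast
    field_simp
  have hdetR : (A.map (Int.cast : ℤ → ℝ)).det = (p : ℝ) ^ 2 := by
    have h1 := Int.cast_det (R := ℝ) A
    rw [hdet] at h1
    push_cast at h1
    exact h1.symm
  have hconst : ((1 / Real.sqrt ((A.map (Int.cast : ℤ → ℝ)).det) : ℝ) : ℂ) * kap τ ^ 4 =
      (1 / (p : ℂ)) * (-1 / τ ^ 2) := by
    rw [hdetR, Real.sqrt_sq (Nat.cast_nonneg p), st_aux_kap_pow τ hτ]
    push_cast
    rfl
  rw [hxf] at hx he
  rw [hyf] at hy he
  rw [hconst] at he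
  exact ⟨hx, hy, he⟩

end Fermat.Agent.S16.InvB
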