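import Fermat.Agent.S16.InvB.StepY

/-!
# S16 / INV-B, induction step, second half: the induction hypothesis in the remaining variables.
(statement frozen)
-/

set_option autoImplicit false

noncomputable section

namespace Fermat.Agent.S16.InvB

open Real Complex

section

variable {n : ℕ} {q qs : (Fin n → ℝ) → ℝ} {g : (Fin n → ℝ) → (Fin n → ℝ)} {D : ℝ}

/-- The key pointwise identity: the product of the `y₀`-factor and the dual term in the remaining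
variables is the dual term in dimension `n + 1` at `Fin.cons y₀ y'`. -/
private theorem e2_aux_term (d : ℝ) (c : Fin n → ℝ) (τ : ℂ) (v w : Fin (n + 1) → ℝ)
    (y₀ : ℤ) (y' : Fin n → ℤ) :
    eC (-(((((y₀ : ℝ) - w 0) ^ 2 / (2 * d) : ℝ)) : ℂ) / τ + (((y₀ : ℝ) * v 0 : ℝ) : ℂ)) *
      eC (-((qs (shiftV y' (-(fun i => Fin.tail w i + ((y₀ : ℝ) - w 0) * c i))) : ℝ) : ℂ) / τ +
        ((dotR (fun i => (y' i : ℝ)) (Fin.tail v) : ℝ) : ℂ)) =
    eC (-((stepQs d c qs (shiftV (Fin.cons y₀ y' : Fin (n + 1) → ℤ) (-w)) : ℝ) : ℂ) / τ +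
        ((dotR (fun i => ((Fin.cons y₀ y' : Fin (n + 1) → ℤ) i : ℝ)) v : ℝ) : ℂ)) := by
  have harg : (fun i : Fin n => shiftV (Fin.cons y₀ y' : Fin (n + 1) → ℤ) (-w) i.succ -
      shiftV (Fin.cons y₀ y' : Fin (n + 1) → ℤ) (-w) 0 * c i) =
      shiftV y' (-(fun i => Fin.tail w i + ((y₀ : ℝ) - w 0) * c i)) := by
    funext i
    simp only [shiftV, Fin.cons_succ, Fin.cons_zero, Pi.neg_apply, Fin.tail]
    ring
  have h0 : shiftV (Fin.cons y₀ y' : Fin (n + 1) → ℤ) (-w) 0 = (y₀ : ℝ) - w 0 := by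
    simp only [shiftV, Fin.cons_zero, Pi.neg_apply]
    ring
  have hdot : dotR (fun i => ((Fin.cons y₀ y' : Fin (n + 1) → ℤ) i : ℝ)) v =
      (y₀ : ℝ) * v 0 + dotR (fun i => (y' i : ℝ)) (Fin.tail v) := by
    simp only [dotR, Fin.sum_univ_succ, Fin.cons_zero, Fin.cons_succ, Fin.tail]
  rw [← eC_add]
  congr 1
  simp only [stepQs]
  rw [harg, h0, hdot]
  push_cast
  ring

theorem GP.step_eq2 (h : GP n q qs g D) {d : ℝ} (hd : 0 < d) (c : Fin n → ℝ)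
    (τ : ℂ) (hτ : 0 < τ.im) (v w : Fin (n + 1) → ℝ) :
    ∑' y₀ : ℤ, ∑' x' : Fin n → ℤ, mixH d c q τ v w y₀ x' =
      ((1 / Real.sqrt D : ℝ) : ℂ) * kap τ ^ n *
        ∑' y : Fin (n + 1) → ℤ,
          eC (-((stepQs d c qs (shiftV y (-w)) : ℝ) : ℂ) / τ +
            ((dotR (fun i => (y i : ℝ)) v : ℝ) : ℂ)) := by
  set K : ℂ := ((1 / Real.sqrt D : ℝ) : ℂ) * kap τ ^ n with hK
  set G : (Fin (n + 1) → ℤ) → ℂ := fun y =>
    eC (-((stepQs d c qs (shiftV y (-w)) : ℝ) : ℂ) / τ +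
      ((dotR (fun i => (y i : ℝ)) v : ℝ) : ℂ)) with hG
  have hGsum : Summable G := h.step_summ_y hd c τ hτ v w
  -- step (a)+(b): the inner sum for fixed `y₀`
  have hinner : ∀ y₀ : ℤ, ∑' x' : Fin n → ℤ, mixH d c q τ v w y₀ x' =
      K * ∑' y' : Fin n → ℤ, G (Fin.cons y₀ y') := by
    intro y₀
    simp only [mixH]
    rw [tsum_mul_left, h.eq τ hτ (Fin.tail v) (fun i => Fin.tail w i + ((y₀ : ℝ) - w 0) * c i),
      ← hK, mul_left_comm, ← tsum_mul_left]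
    congr 1
    refine tsum_congr fun y' => ?_
    exact e2_aux_term d c τ v w y₀ y'
  -- step (c)
  have hprod : Summable fun z : ℤ × (Fin n → ℤ) => G (Fin.cons z.1 z.2) :=
    ((Fin.consEquiv (fun _ : Fin (n + 1) => ℤ)).summable_iff (f := G)).mpr hGsum
  have h1 : ∑' z : ℤ × (Fin n → ℤ), G (Fin.cons z.1 z.2) =
      ∑' y₀ : ℤ, ∑' y' : Fin n → ℤ, G (Fin.cons y₀ y') :=
    hprod.tsum_prod (f := fun z : ℤ × (Fin n → ℤ) => G (Fin.cons z.1 z.2))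
  have h2 : ∑' z : ℤ × (Fin n → ℤ), G (Fin.cons z.1 z.2) = ∑' y : Fin (n + 1) → ℤ, G y :=
    (Fin.consEquiv (fun _ : Fin (n + 1) => ℤ)).tsum_eq G
  calc ∑' y₀ : ℤ, ∑' x' : Fin n → ℤ, mixH d c q τ v w y₀ x'
      = ∑' y₀ : ℤ, K * ∑' y' : Fin n → ℤ, G (Fin.cons y₀ y') := tsum_congr hinner
    _ = K * ∑' y₀ : ℤ, ∑' y' : Fin n → ℤ, G (Fin.cons y₀ y') := tsum_mul_left
    _ = K * ∑' y : Fin (n + 1) → ℤ, G y := by rw [← h1, h2]

end

end Fermat.Agent.S16.InvB
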