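import Fermat.Agent.S16.InvB.StepEq1
import Fermat.Agent.S16.InvB.StepEq2
import Fermat.Agent.S16.InvB.Base

/-!
# S16 / INV-B: the induction step (assembled from the leaves).
-/

set_option autoImplicit false

noncomputable section

namespace Fermat.Agent.S16.InvB

open Real Complex

section

variable {n : ℕ} {q qs : (Fin n → ℝ) → ℝ} {g : (Fin n → ℝ) → (Fin n → ℝ)} {D : ℝ}

theorem GP.step (h : GP n q qs g D) {d : ℝ} (hd : 0 < d) (c : Fin n → ℝ) :
    GP (n + 1) (stepQ d c q) (stepQs d c qs) (stepG d c g) (d * D) where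
  pos := mul_pos hd h.pos
  dual := stepQs_stepG h.dual hd c
  summ_x := fun τ hτ v w => h.step_summ_x hd c τ hτ v w
  summ_y := fun τ hτ v w => h.step_summ_y hd c τ hτ v w
  eq := fun τ hτ v w => by
    rw [h.step_eq1 hd c τ hτ v w, h.step_eq2 hd c τ hτ v w]
    have h1 : ((1 / Real.sqrt (d * D) : ℝ) : ℂ) =
        ((1 / Real.sqrt d : ℝ) : ℂ) * ((1 / Real.sqrt D : ℝ) : ℂ) := by
      rw [Real.sqrt_mul hd.le, ← Complex.ofReal_mul]
      congr 1
      field_simp
    rw [h1, pow_succ]
    ring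

end

end Fermat.Agent.S16.InvB
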