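import Fermat.Agent.S16.InvB.StepX

/-!
# S16 / INV-B, induction step, first half: Poisson in the first variable and exchange of sums.
(statements frozen)
-/

set_option autoImplicit false

noncomputable section

namespace Fermat.Agent.S16.InvB

open Real Complex

private theorem e1_aux_dotR_add {n : ℕ} (w' c u : Fin n → ℝ) (t : ℝ) :
    dotR (fun i => w' i + t * c i) u = dotR w' u + t * dotR c u := by
  simp only [dotR, Finset.mul_sum, ← Finset.sum_add_distrib]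
  refine Finset.sum_congr rfl fun i _ => ?_
  ring

private theorem e1_aux_tail_shiftV {n : ℕ} (a : ℤ) (x' : Fin n → ℤ) (v : Fin (n + 1) → ℝ) :
    Fin.tail (shiftV (Fin.cons a x' : Fin (n + 1) → ℤ) v) = shiftV x' (Fin.tail v) := by
  funext i
  simp [shiftV, Fin.tail]

private theorem e1_aux_stepQ {n : ℕ} (d : ℝ) (c : Fin n → ℝ) (q : (Fin n → ℝ) → ℝ) (a : ℤ)
    (x' : Fin n → ℤ) (v : Fin (n + 1) → ℝ) :
    stepQ d c q (shiftV (Fin.cons a x' : Fin (n + 1) → ℤ) v) =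
      d / 2 * ((a : ℝ) + (v 0 + dotR c (shiftV x' (Fin.tail v)))) ^ 2 +
        q (shiftV x' (Fin.tail v)) := by
  unfold stepQ
  rw [e1_aux_tail_shiftV]
  have h0 : shiftV (Fin.cons a x' : Fin (n + 1) → ℤ) v 0 = (a : ℝ) + v 0 := by
    simp [shiftV]
  rw [h0]
  ring

private theorem e1_aux_dotR_cons {n : ℕ} (w : Fin (n + 1) → ℝ) (a : ℤ)
    (x' : Fin n → ℤ) (v : Fin (n + 1) → ℝ) :
    dotR w (shiftV (Fin.cons a x' : Fin (n + 1) → ℤ) v) =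
      w 0 * ((a : ℝ) + v 0) + dotR (Fin.tail w) (shiftV x' (Fin.tail v)) := by
  simp [dotR, Fin.sum_univ_succ, shiftV, Fin.tail]

/-- The term of the `x`-family at `cons a x'`, factored. -/
private theorem e1_aux_term {n : ℕ} (d : ℝ) (c : Fin n → ℝ) (q : (Fin n → ℝ) → ℝ) (τ : ℂ)
    (v w : Fin (n + 1) → ℝ) (a : ℤ) (x' : Fin n → ℤ) :
    eC (((stepQ d c q (shiftV (Fin.cons a x' : Fin (n + 1) → ℤ) v) : ℝ) : ℂ) * τ +
        ((dotR w (shiftV (Fin.cons a x' : Fin (n + 1) → ℤ) v) : ℝ) : ℂ)) =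
      eC (((d / 2 * ((a : ℝ) + (v 0 + dotR c (shiftV x' (Fin.tail v)))) ^ 2 : ℝ) : ℂ) * τ +
          ((w 0 * ((a : ℝ) + (v 0 + dotR c (shiftV x' (Fin.tail v)))) : ℝ) : ℂ)) *
        (eC (((-(w 0 * dotR c (shiftV x' (Fin.tail v))) : ℝ) : ℂ)) *
          eC (((q (shiftV x' (Fin.tail v)) : ℝ) : ℂ) * τ +
            ((dotR (Fin.tail w) (shiftV x' (Fin.tail v)) : ℝ) : ℂ))) := by
  rw [e1_aux_stepQ, e1_aux_dotR_cons, ← eC_add, ← eC_add]
  congr 1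
  push_cast
  ring

/-- The dual term times the remaining factor is the mixed term. -/
private theorem e1_aux_mix {n : ℕ} (d : ℝ) (c : Fin n → ℝ) (q : (Fin n → ℝ) → ℝ) (τ : ℂ)
    (v w : Fin (n + 1) → ℝ) (y : ℤ) (x' : Fin n → ℤ) :
    eC (-((((y : ℝ) - w 0) ^ 2 / (2 * d) : ℝ) : ℂ) / τ +
          (((y : ℝ) * (v 0 + dotR c (shiftV x' (Fin.tail v))) : ℝ) : ℂ)) *
        (eC (((-(w 0 * dotR c (shiftV x' (Fin.tail v))) : ℝ) : ℂ)) *
          eC (((q (shiftV x' (Fin.tail v)) : ℝ) : ℂ) * τ +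
            ((dotR (Fin.tail w) (shiftV x' (Fin.tail v)) : ℝ) : ℂ))) =
      mixH d c q τ v w y x' := by
  unfold mixH
  rw [e1_aux_dotR_add, ← eC_add, ← eC_add, ← eC_add]
  congr 1
  push_cast
  ring

section

variable {n : ℕ} {q qs : (Fin n → ℝ) → ℝ} {g : (Fin n → ℝ) → (Fin n → ℝ)} {D : ℝ}

/-- The mixed family is summable over `ℤ × ℤⁿ` (its norm is a product). -/
theorem GP.mixH_summable (h : GP n q qs g D) {d : ℝ} (hd : 0 < d) (c : Fin n → ℝ)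
    (τ : ℂ) (hτ : 0 < τ.im) (v w : Fin (n + 1) → ℝ) :
    Summable fun z : ℤ × (Fin n → ℤ) => mixH d c q τ v w z.1 z.2 := by
  apply Summable.of_norm
  have hf : Summable fun y : ℤ =>
      ‖eC (-((((y : ℝ) - w 0) ^ 2 / (2 * d) : ℝ) : ℂ) / τ + (((y : ℝ) * v 0 : ℝ) : ℂ))‖ :=
    (oneDim_summable_dual d hd τ hτ (v 0) (w 0)).norm
  have hg := h.summ_x_norm τ hτ (Fin.tail v)
  have hfg := Summable.mul_of_nonneg hf hg (fun _ => norm_nonneg _) (fun _ => norm_nonneg _)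
  refine hfg.congr fun z => ?_
  unfold mixH
  rw [norm_mul, norm_eC_add_ofReal (((q (shiftV z.2 (Fin.tail v)) : ℝ) : ℂ) * τ)]

theorem GP.step_eq1 (h : GP n q qs g D) {d : ℝ} (hd : 0 < d) (c : Fin n → ℝ)
    (τ : ℂ) (hτ : 0 < τ.im) (v w : Fin (n + 1) → ℝ) :
    ∑' x : Fin (n + 1) → ℤ,
        eC (((stepQ d c q (shiftV x v) : ℝ) : ℂ) * τ + ((dotR w (shiftV x v) : ℝ) : ℂ)) =
      ((1 / Real.sqrt d : ℝ) : ℂ) * kap τ *
        ∑' y₀ : ℤ, ∑' x' : Fin n → ℤ, mixH d c q τ v w y₀ x' := by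
  have hS := h.step_summ_x hd c τ hτ v w
  -- reindex by `cons`
  have hS' : Summable fun z : ℤ × (Fin n → ℤ) =>
      eC (((stepQ d c q (shiftV (Fin.cons z.1 z.2 : Fin (n + 1) → ℤ) v) : ℝ) : ℂ) * τ +
        ((dotR w (shiftV (Fin.cons z.1 z.2 : Fin (n + 1) → ℤ) v) : ℝ) : ℂ)) :=
    (Fin.consEquiv (fun _ : Fin (n + 1) => ℤ)).summable_iff.mpr hS
  have h1 : ∑' x : Fin (n + 1) → ℤ,
        eC (((stepQ d c q (shiftV x v) : ℝ) : ℂ) * τ + ((dotR w (shiftV x v) : ℝ) : ℂ)) =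
      ∑' z : ℤ × (Fin n → ℤ),
        eC (((stepQ d c q (shiftV (Fin.cons z.1 z.2 : Fin (n + 1) → ℤ) v) : ℝ) : ℂ) * τ +
          ((dotR w (shiftV (Fin.cons z.1 z.2 : Fin (n + 1) → ℤ) v) : ℝ) : ℂ)) :=
    ((Fin.consEquiv (fun _ : Fin (n + 1) => ℤ)).tsum_eq
      (fun x : Fin (n + 1) → ℤ =>
        eC (((stepQ d c q (shiftV x v) : ℝ) : ℂ) * τ + ((dotR w (shiftV x v) : ℝ) : ℂ)))).symm
  have h2 : ∑' z : ℤ × (Fin n → ℤ),
        eC (((stepQ d c q (shiftV (Fin.cons z.1 z.2 : Fin (n + 1) → ℤ) v) : ℝ) : ℂ) * τ +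
          ((dotR w (shiftV (Fin.cons z.1 z.2 : Fin (n + 1) → ℤ) v) : ℝ) : ℂ)) =
      ∑' x' : Fin n → ℤ, ∑' a : ℤ,
        eC (((stepQ d c q (shiftV (Fin.cons a x' : Fin (n + 1) → ℤ) v) : ℝ) : ℂ) * τ +
          ((dotR w (shiftV (Fin.cons a x' : Fin (n + 1) → ℤ) v) : ℝ) : ℂ)) := by
    rw [hS'.tsum_prod]
    exact (Summable.tsum_comm (f := fun (a : ℤ) (x' : Fin n → ℤ) =>
      eC (((stepQ d c q (shiftV (Fin.cons a x' : Fin (n + 1) → ℤ) v) : ℝ) : ℂ) * τ +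
        ((dotR w (shiftV (Fin.cons a x' : Fin (n + 1) → ℤ) v) : ℝ) : ℂ))) hS').symm
  -- the inner sum, by the one-dimensional formula
  have h3 : ∀ x' : Fin n → ℤ, ∑' a : ℤ,
        eC (((stepQ d c q (shiftV (Fin.cons a x' : Fin (n + 1) → ℤ) v) : ℝ) : ℂ) * τ +
          ((dotR w (shiftV (Fin.cons a x' : Fin (n + 1) → ℤ) v) : ℝ) : ℂ)) =
      ((1 / Real.sqrt d : ℝ) : ℂ) * kap τ * ∑' y₀ : ℤ, mixH d c q τ v w y₀ x' := by
    intro x'
    simp only [e1_aux_term]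
    rw [tsum_mul_right, oneDim_eq d hd τ hτ (v 0 + dotR c (shiftV x' (Fin.tail v))) (w 0),
      mul_assoc (((1 / Real.sqrt d : ℝ) : ℂ) * kap τ), ← tsum_mul_right]
    simp only [e1_aux_mix]
  have hM := h.mixH_summable hd c τ hτ v w
  have h4 : ∑' x' : Fin n → ℤ, ∑' y₀ : ℤ, mixH d c q τ v w y₀ x' =
      ∑' y₀ : ℤ, ∑' x' : Fin n → ℤ, mixH d c q τ v w y₀ x' :=
    Summable.tsum_comm (f := fun (y₀ : ℤ) (x' : Fin n → ℤ) => mixH d c q τ v w y₀ x') hM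
  rw [h1, h2]
  simp only [h3]
  rw [tsum_mul_left, h4]

end

end Fermat.Agent.S16.InvB
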