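import Fermat.Agent.S16.InvB.Bound

/-!
# S16 / INV-B, induction step: summability of the `x`-family in dimension `n + 1`.
(statement frozen)
-/

set_option autoImplicit false

noncomputable section

namespace Fermat.Agent.S16.InvB

open Real Complex

/-- Splitting off the first coordinate. -/
private def sx_aux_equiv (n : ℕ) : (Fin (n + 1) → ℤ) ≃ ℤ × (Fin n → ℤ) where
  toFun x := (x 0, Fin.tail x)
  invFun p := Fin.cons p.1 p.2
  left_inv x := Fin.cons_self_tail x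
  right_inv p := by simp

private theorem sx_aux_oneDim_norm (d : ℝ) (hd : 0 < d) (τ : ℂ) (hτ : 0 < τ.im) (s : ℝ) :
    Summable fun x : ℤ => ‖eC (((d / 2 * ((x : ℝ) + s) ^ 2 : ℝ) : ℂ) * τ)‖ := by
  have h := (oneDim_summable d hd τ hτ s 0).norm
  simpa only [norm_eC_add_ofReal] using h

private theorem sx_aux_term {n : ℕ} (d : ℝ) (c : Fin n → ℝ) (q : (Fin n → ℝ) → ℝ) (τ : ℂ)
    (v : Fin (n + 1) → ℝ) (x : Fin (n + 1) → ℤ) :
    ‖eC (((stepQ d c q (shiftV x v) : ℝ) : ℂ) * τ)‖ =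
      ‖eC (((d / 2 * (((x 0 : ℤ) : ℝ) +
          (v 0 + dotR c (shiftV (Fin.tail x) (Fin.tail v)))) ^ 2 : ℝ) : ℂ) * τ)‖ *
        ‖eC (((q (shiftV (Fin.tail x) (Fin.tail v)) : ℝ) : ℂ) * τ)‖ := by
  have hq : stepQ d c q (shiftV x v) =
      d / 2 * (((x 0 : ℤ) : ℝ) + (v 0 + dotR c (shiftV (Fin.tail x) (Fin.tail v)))) ^ 2 +
        q (shiftV (Fin.tail x) (Fin.tail v)) := by
    show d / 2 * ((((x 0 : ℤ) : ℝ) + v 0) + dotR c (shiftV (Fin.tail x) (Fin.tail v))) ^ 2 +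
        q (shiftV (Fin.tail x) (Fin.tail v)) = _
    rw [add_assoc]
  rw [← norm_mul, ← eC_add, ← add_mul, ← Complex.ofReal_add, hq]

section

variable {n : ℕ} {q qs : (Fin n → ℝ) → ℝ} {g : (Fin n → ℝ) → (Fin n → ℝ)} {D : ℝ}

theorem GP.step_summ_x (h : GP n q qs g D) {d : ℝ} (hd : 0 < d) (c : Fin n → ℝ)
    (τ : ℂ) (hτ : 0 < τ.im) (v w : Fin (n + 1) → ℝ) :
    Summable fun x : Fin (n + 1) → ℤ =>
      eC (((stepQ d c q (shiftV x v) : ℝ) : ℂ) * τ + ((dotR w (shiftV x v) : ℝ) : ℂ)) := by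
  apply Summable.of_norm
  simp only [norm_eC_add_ofReal]
  obtain ⟨C, hC⟩ := oneDim_bound d hd τ hτ
  have hG : Summable fun p : (Fin n → ℤ) × ℤ =>
      ‖eC (((d / 2 * (((p.2 : ℤ) : ℝ) +
          (v 0 + dotR c (shiftV p.1 (Fin.tail v)))) ^ 2 : ℝ) : ℂ) * τ)‖ *
        ‖eC (((q (shiftV p.1 (Fin.tail v)) : ℝ) : ℂ) * τ)‖ := by
    rw [summable_prod_of_nonneg (fun p => mul_nonneg (norm_nonneg _) (norm_nonneg _))]
    refine ⟨fun x' => (sx_aux_oneDim_norm d hd τ hτ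
      (v 0 + dotR c (shiftV x' (Fin.tail v)))).mul_right
        ‖eC (((q (shiftV x' (Fin.tail v)) : ℝ) : ℂ) * τ)‖, ?_⟩
    refine Summable.of_nonneg_of_le
      (fun x' => tsum_nonneg fun a => mul_nonneg (norm_nonneg _) (norm_nonneg _))
      (fun x' => ?_) ((h.summ_x_norm τ hτ (Fin.tail v)).mul_left C)
    show (∑' a : ℤ, ‖eC (((d / 2 * (((a : ℤ) : ℝ) +
          (v 0 + dotR c (shiftV x' (Fin.tail v)))) ^ 2 : ℝ) : ℂ) * τ)‖ *
        ‖eC (((q (shiftV x' (Fin.tail v)) : ℝ) : ℂ) * τ)‖) ≤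
      C * ‖eC (((q (shiftV x' (Fin.tail v)) : ℝ) : ℂ) * τ)‖
    rw [tsum_mul_right]
    exact mul_le_mul_of_nonneg_right (hC (v 0 + dotR c (shiftV x' (Fin.tail v))))
      (norm_nonneg _)
  have hF : Summable fun p : ℤ × (Fin n → ℤ) =>
      ‖eC (((d / 2 * (((p.1 : ℤ) : ℝ) +
          (v 0 + dotR c (shiftV p.2 (Fin.tail v)))) ^ 2 : ℝ) : ℂ) * τ)‖ *
        ‖eC (((q (shiftV p.2 (Fin.tail v)) : ℝ) : ℂ) * τ)‖ :=
    ((Equiv.prodComm (Fin n → ℤ) ℤ).summable_iff).mp hG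
  have hE := ((sx_aux_equiv n).summable_iff).mpr hF
  refine hE.congr fun x => ?_
  exact (sx_aux_term d c q τ v x).symm

end

end Fermat.Agent.S16.InvB
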