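import Fermat.Agent.S16.InvB.Bound

/-!
# S16 / INV-B, induction step: summability of the `y`-family in dimension `n + 1`.
(statement frozen)
-/

set_option autoImplicit false

noncomputable section

namespace Fermat.Agent.S16.InvB

open Real Complex

section

variable {n : ℕ} {q qs : (Fin n → ℝ) → ℝ} {g : (Fin n → ℝ) → (Fin n → ℝ)} {D : ℝ}

/-- Splitting of `stepQs` at a shifted integer vector. -/
private theorem sy_aux_stepQs (d : ℝ) (c : Fin n → ℝ) (qs : (Fin n → ℝ) → ℝ)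
    (w : Fin (n + 1) → ℝ) (y : Fin (n + 1) → ℤ) :
    stepQs d c qs (shiftV y (-w)) = ((y 0 : ℝ) - w 0) ^ 2 / (2 * d) +
      qs (shiftV (Fin.tail y) (-(fun i => Fin.tail w i + ((y 0 : ℝ) - w 0) * c i))) := by
  unfold stepQs
  have h0 : shiftV y (-w) 0 = (y 0 : ℝ) - w 0 := by
    simp only [shiftV, Pi.neg_apply]; ring
  have h1 : (fun i : Fin n => shiftV y (-w) i.succ - shiftV y (-w) 0 * c i) =
      shiftV (Fin.tail y) (-(fun i => Fin.tail w i + ((y 0 : ℝ) - w 0) * c i)) := by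
    funext i
    simp only [shiftV, Pi.neg_apply, Fin.tail]
    ring
  rw [h1, h0]

theorem GP.step_summ_y (h : GP n q qs g D) {d : ℝ} (hd : 0 < d) (c : Fin n → ℝ)
    (τ : ℂ) (hτ : 0 < τ.im) (v w : Fin (n + 1) → ℝ) :
    Summable fun y : Fin (n + 1) → ℤ =>
      eC (-((stepQs d c qs (shiftV y (-w)) : ℝ) : ℂ) / τ +
        ((dotR (fun i => (y i : ℝ)) v : ℝ) : ℂ)) := by
  apply Summable.of_norm
  -- the product majorant on `ℤ × (Fin n → ℤ)`
  let W : ℤ → Fin n → ℝ := fun a i => Fin.tail w i + ((a : ℝ) - w 0) * c i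
  let A : ℤ → ℝ := fun a => ‖eC (-(((((a : ℝ) - w 0) ^ 2 / (2 * d) : ℝ)) : ℂ) / τ)‖
  let G : ℤ × (Fin n → ℤ) → ℝ := fun p =>
    A p.1 * ‖eC (-((qs (shiftV p.2 (-(W p.1))) : ℝ) : ℂ) / τ)‖
  have hA : Summable A := by
    have h1 := (oneDim_summable_dual d hd τ hτ 0 (w 0)).norm
    refine h1.congr fun a => ?_
    rw [norm_eC_add_ofReal]
  have hG : Summable G := by
    have hG0 : 0 ≤ G := fun p => mul_nonneg (norm_nonneg _) (norm_nonneg _)
    rw [summable_prod_of_nonneg hG0]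
    obtain ⟨C, hC⟩ := h.bound_y τ hτ
    refine ⟨fun a => (h.summ_y_norm τ hτ (W a)).mul_left (A a), ?_⟩
    refine Summable.of_nonneg_of_le (fun a => tsum_nonneg fun y' => hG0 (a, y')) (fun a => ?_)
      (hA.mul_right C)
    show ∑' y' : Fin n → ℤ, A a * ‖eC (-((qs (shiftV y' (-(W a))) : ℝ) : ℂ) / τ)‖ ≤ A a * C
    rw [tsum_mul_left]
    exact mul_le_mul_of_nonneg_left (hC (W a)) (norm_nonneg _)
  have hcomp : (fun y : Fin (n + 1) → ℤ =>
      ‖eC (-((stepQs d c qs (shiftV y (-w)) : ℝ) : ℂ) / τ +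
        ((dotR (fun i => (y i : ℝ)) v : ℝ) : ℂ))‖) =
      G ∘ (Fin.consEquiv (fun _ : Fin (n + 1) => ℤ)).symm := by
    funext y
    show _ = A (y 0) * ‖eC (-((qs (shiftV (Fin.tail y) (-(W (y 0)))) : ℝ) : ℂ) / τ)‖
    rw [norm_eC_add_ofReal, sy_aux_stepQs, ← norm_mul, ← eC_add]
    congr 2
    push_cast
    ring
  rw [hcomp]
  exact (Fin.consEquiv (fun _ : Fin (n + 1) => ℤ)).symm.summable_iff.mpr hG

end

end Fermat.Agent.S16.InvB
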